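/-
GATE-Z / seam (HECKE-TORS), file 1 (helper36): the Kummer isomorphism
`kumTorsionBy N m : Kum_m(F_N) ≃+ J₀(N)[m]` intertwines the Hecke operator of the Kummer model
(`T ℓ [u] = [heckeNorm ℓ u]`) with the prelude operator `heckeOperatorBar N ℓ` on `JZero N`.

* `hK`                  : `K18sPow` (a theorem: S30/S31 are closed);
* `Mm N m`              : the Kummer model at the modulus `m` (`kumModelPow`);
* `coe_kumTorsionBy_T`  : `kumTorsionBy (T ℓ x) = heckeOperatorBar N ℓ (kumTorsionBy x)`.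
-/
import Fermat.Agent.GH.S32.KumEquivariant
import Fermat.Agent.GJ.Tate.S31Top
import Fermat.Agent.GJ.Tate.S30Final
import Fermat.Agent.GJ.J1.K18sAllFinal
import Fermat.Agent.GJ.HN.Bridge
import Fermat.Agent.GJ.HN.Div
import Fermat.Agent.GJ.S37.HeckeOpDiv

set_option autoImplicit false
set_option linter.unusedSectionVars false

noncomputable section

namespace Fermat.Agent.GZ.HeckeTors

open AlgebraicCurve ModularCurve
open Fermat.Agent.GJ.KumGroup Fermat.Agent.GJ.Kum.KumType Fermat.Agent.GJ.J4Asm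
open Fermat.Agent.GJ.KumFinal (hnMemHyp hnDivHyp)
open Fermat.Agent.GJ.Tate.S31Top Fermat.Agent.GH Fermat.Agent.GH.S32.KumEquivariant
open Fermat.Agent.GH.TorsionCount

local notation "Qb" => AlgebraicClosure ℚ
local notation "GQ" => (AlgebraicClosure ℚ ≃ₐ[ℚ] AlgebraicClosure ℚ)

/-- (K18s) at every exponent: a theorem. -/
theorem hK : K18sPow :=
  Fermat.Agent.GJ.Tate.S30Final.k18sPow_of_aux Fermat.Agent.GJ.J1.K18sAllFinal.k18sAux

variable (N : ℕ) [NeZero N] (m : ℕ) [NeZero m]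

/-- the Kummer model at the modulus `m` -/
def Mm : KumModel N m := kumModelPow N hK m (Nat.pos_of_ne_zero (NeZero.ne m))

theorem Mm_K : (Mm N m).K = Additive (Kum Qb (FK N) m) := rfl

/-- the Hecke operator of the model on the class of a unit -/
theorem Mm_T_mk {ℓ : ℕ} (hℓ : ℓ.Prime) (hℓN : ¬ ℓ ∣ N) (u : pDivUnits Qb (FK N) m) :
    (Mm N m).T ℓ (Additive.ofMul (Kum.mk u)) =
      Additive.ofMul (Kum.mk
        ⟨@heckeUnits N ℓ ⟨hℓ.ne_zero⟩ (hnMemHyp N hℓ hℓN) u,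
          @heckeUnits_mem N ℓ ⟨hℓ.ne_zero⟩ m (hnMemHyp N hℓ hℓN) (hnDivHyp N m hℓ hℓN) u u.2⟩) := by
  have : NeZero ℓ := ⟨hℓ.ne_zero⟩
  exact kumModel_T_cls_of_eq (p := m) (fun _ hℓ hℓN => hnMemHyp N hℓ hℓN)
    (fun _ hℓ hℓN => hnDivHyp N m hℓ hℓN)
    (fun _ hℓ hℓNm => (es_hyps_pow N hK (Nat.pos_of_ne_zero (NeZero.ne m)) hℓ hℓNm).1)
    (fun _ hℓ hℓNm => (es_hyps_pow N hK (Nat.pos_of_ne_zero (NeZero.ne m)) hℓ hℓNm).2)
    hℓ hℓN u _ rfl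

/-- the element of `F_N` underlying the Hecke norm of a unit is `heckeNormF` -/
theorem coe_heckeUnits_eq {ℓ : ℕ} (hℓ : ℓ.Prime) (hℓN : ¬ ℓ ∣ N) (u : (FK N)ˣ) :
    haveI : Fact ℓ.Prime := ⟨hℓ⟩
    ((@heckeUnits N ℓ ⟨hℓ.ne_zero⟩ (hnMemHyp N hℓ hℓN) u : (FK N)ˣ) : FK N) =
      Fermat.Agent.GJ.HN.heckeNormF N ℓ (u : FK N) := by
  haveI : Fact ℓ.Prime := ⟨hℓ⟩
  haveI : NeZero ℓ := ⟨hℓ.ne_zero⟩
  apply Subtype.ext
  rw [Fermat.Agent.GJ.HN.coe_heckeNormF N ℓ hℓN]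
  rfl

/-- **Hecke compatibility of the Kummer isomorphism.** -/
theorem coe_kumTorsionBy_T {ℓ : ℕ} (hℓ : ℓ.Prime) (hℓN : ¬ ℓ ∣ N)
    (x : Additive (Kum Qb (FK N) m)) :
    ((kumTorsionBy N m ((Mm N m).T ℓ x) : ↥(Submodule.torsionBy ℤ (JZero N) (m : ℤ))) : JZero N) =
      heckeOperatorBar N ⟨ℓ, hℓ⟩
        ((kumTorsionBy N m x : ↥(Submodule.torsionBy ℤ (JZero N) (m : ℤ))) : JZero N) := by
  haveI : Fact ℓ.Prime := ⟨hℓ⟩
  haveI : NeZero ℓ := ⟨hℓ.ne_zero⟩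
  haveI := hasPrincipalDivisors_FK N
  obtain ⟨u, rfl⟩ := exists_rep (K := Qb) (F := FK N) (p := m) x
  have h1 := Mm_T_mk N m hℓ hℓN u
  refine (congrArg (fun y => ((kumTorsionBy N m y :
    ↥(Submodule.torsionBy ℤ (JZero N) (m : ℤ))) : JZero N)) h1).trans ?_
  obtain ⟨hα, hβ, hP, hfin, hFI, hNF, hop⟩ :=
    Fermat.Agent.GJ.HInputs.exists_heckeOperatorBar_eq N ⟨ℓ, hℓ⟩
  set u' : pDivUnits Qb (FK N) m :=
    ⟨@heckeUnits N ℓ ⟨hℓ.ne_zero⟩ (hnMemHyp N hℓ hℓN) u,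
      @heckeUnits_mem N ℓ ⟨hℓ.ne_zero⟩ m (hnMemHyp N hℓ hℓN) (hnDivHyp N m hℓ hℓN) u u.2⟩ with hu'
  show Pic0.mk ⟨KummerPic.divDiv m u', KummerPic.degree_divDiv m u'⟩ =
    heckeOperatorBar N ⟨ℓ, hℓ⟩ (Pic0.mk ⟨KummerPic.divDiv m u, KummerPic.degree_divDiv m u⟩)
  rw [hop]
  show Pic0.mk ⟨KummerPic.divDiv m u', KummerPic.degree_divDiv m u'⟩ =
    Pic0.mk ⟨heckeDivBar hα hβ (KummerPic.divDiv m u),
      Divisor.correspondence_mem_degZero _ _ hβ hα hFI (KummerPic.degree_divDiv m u)⟩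
  congr 1
  apply Subtype.ext
  show KummerPic.divDiv m u' = heckeDivBar hα hβ (KummerPic.divDiv m u)
  ext P
  have hm : (m : ℤ) ≠ 0 := Int.natCast_ne_zero.2 (NeZero.ne m)
  apply mul_left_cancel₀ hm
  rw [KummerPic.mul_divDiv_apply]
  -- the divisor of `u`
  set D : Divisor Qb (FK N) := KummerPic.divOf (K := Qb) ((u : (FK N)ˣ) : FK N) (u : (FK N)ˣ).ne_zero
    with hD
  have hDm : D = (m : ℤ) • KummerPic.divDiv m u := by
    ext v
    rw [Finsupp.smul_apply, smul_eq_mul, KummerPic.mul_divDiv_apply, hD, KummerPic.divOf_apply]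
  have h2 := Fermat.Agent.GJ.HN.heckeDivBar_eq_ord_heckeNormF N ℓ hα hβ hfin hNF
    ((u : (FK N)ˣ) : FK N) (u : (FK N)ˣ).ne_zero D (fun v => KummerPic.divOf_apply _ _ v) P
  rw [hDm, map_zsmul, Finsupp.smul_apply, smul_eq_mul] at h2
  rw [h2]
  exact congrArg P.ord (coe_heckeUnits_eq N hℓ hℓN (u : (FK N)ˣ))

end Fermat.Agent.GZ.HeckeTors
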