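/-
GATE-Z / seam (HECKE-TORS), file 2 (helper36): Eichler–Shimura on `J₀(N)[m]` in the `JZero`
vocabulary (`σ • z`, `heckeOperatorBar N ℓ`), transported from the Kummer model along
`kumTorsionBy` (`Compat.lean`).

For `z : JZero N` with `(m : ℤ) • z = 0`:
* `es_jzero`          : `τ • τ • z − T_ℓ (τ • z) + ℓ • z = 0` for a Frobenius lift `τ` at `ℓ ∤ N m`;
* `hecke_smul_tors`   : `T_ℓ (σ • z) = σ • T_ℓ z` (`ℓ ∤ N`);
* `inertia_smul_tors` : inertia at `ℓ ∤ N m` fixes `z`;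
* `hasLevel_tors`     : the stabiliser of `z` has finite level.
-/
import Fermat.Agent.GZ.HeckeTors.Compat

set_option autoImplicit false
set_option linter.unusedSectionVars false

noncomputable section

namespace Fermat.Agent.GZ.HeckeTors

open AlgebraicCurve ModularCurve
open Fermat.Agent.GJ.KumGroup Fermat.Agent.GJ.Kum.KumType Fermat.Agent.GJ.J4Asm
open Fermat.Agent.GH Fermat.Agent.GH.S32.KumEquivariant

local notation "Qb" => AlgebraicClosure ℚ
local notation "GQ" => (AlgebraicClosure ℚ ≃ₐ[ℚ] AlgebraicClosure ℚ)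

variable (N : ℕ) [NeZero N] (m : ℕ) [NeZero m]

/-- the Kummer isomorphism, as an additive map into `JZero N` -/
def toJ : (Mm N m).K →+ JZero N :=
  (Submodule.torsionBy ℤ (JZero N) (m : ℤ)).subtype.toAddMonoidHom.comp
    (kumTorsionBy N m).toAddMonoidHom

theorem toJ_apply (x : (Mm N m).K) :
    toJ N m x =
      ((kumTorsionBy N m x : ↥(Submodule.torsionBy ℤ (JZero N) (m : ℤ))) : JZero N) := rfl

/-- the Kummer class of an `m`-torsion point -/
def kumOf (z : JZero N) (hz : (m : ℤ) • z = 0) : (Mm N m).K :=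
  (kumTorsionBy N m).symm ⟨z, (Submodule.mem_torsionBy_iff _ _).mpr hz⟩

theorem toJ_kumOf (z : JZero N) (hz : (m : ℤ) • z = 0) : toJ N m (kumOf N m z hz) = z := by
  rw [toJ_apply]
  unfold kumOf
  rw [AddEquiv.apply_symm_apply]

theorem toJ_gal (σ : GQ) (x : (Mm N m).K) : toJ N m ((Mm N m).gal σ x) = σ • toJ N m x :=
  kumTorsionBy_gal N m σ x

theorem toJ_T {ℓ : ℕ} (hℓ : ℓ.Prime) (hℓN : ¬ ℓ ∣ N) (x : (Mm N m).K) :
    toJ N m ((Mm N m).T ℓ x) = heckeOperatorBar N ⟨ℓ, hℓ⟩ (toJ N m x) :=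
  coe_kumTorsionBy_T N m hℓ hℓN x

/-- **(ES-J)** the Eichler–Shimura relation on `J₀(N)[m]`. -/
theorem es_jzero {ℓ : ℕ} (hℓ : ℓ.Prime) (hℓNm : ¬ ℓ ∣ N * m) (A : ValuationSubring Qb)
    (hA : A.LiesOverPrime ℓ) (τ : GQ) (hτ : A.IsFrobeniusAt τ ℓ) (z : JZero N)
    (hz : (m : ℤ) • z = 0) :
    τ • τ • z - heckeOperatorBar N ⟨ℓ, hℓ⟩ (τ • z) + ℓ • z = 0 := by
  have hℓN : ¬ ℓ ∣ N := fun h => hℓNm (Dvd.dvd.mul_right h m)
  have h := LinearMap.congr_fun ((Mm N m).frob ℓ hℓ hℓNm A hA τ hτ) (kumOf N m z hz)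
  rw [LinearMap.add_apply, LinearMap.sub_apply, Module.End.mul_apply, Module.End.mul_apply,
    LinearMap.smul_apply, Module.End.one_apply, LinearMap.zero_apply,
    Nat.cast_smul_eq_nsmul (ZMod m) ℓ (kumOf N m z hz)] at h
  have h2 := congrArg (toJ N m) h
  rw [map_add, map_sub, map_nsmul, map_zero, toJ_gal, toJ_gal, toJ_T N m hℓ hℓN, toJ_gal,
    toJ_kumOf] at h2
  exact h2

/-- Hecke operators commute with the Galois action on torsion points. -/
theorem hecke_smul_tors {ℓ : ℕ} (hℓ : ℓ.Prime) (hℓN : ¬ ℓ ∣ N) (σ : GQ) (z : JZero N)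
    (hz : (m : ℤ) • z = 0) :
    heckeOperatorBar N ⟨ℓ, hℓ⟩ (σ • z) = σ • heckeOperatorBar N ⟨ℓ, hℓ⟩ z := by
  have h := LinearMap.congr_fun ((Mm N m).T_comm_gal ℓ σ) (kumOf N m z hz)
  rw [Module.End.mul_apply, Module.End.mul_apply] at h
  have h2 := congrArg (toJ N m) h
  rw [toJ_T N m hℓ hℓN, toJ_gal, toJ_gal, toJ_T N m hℓ hℓN, toJ_kumOf] at h2
  exact h2

/-- inertia at `ℓ ∤ N m` acts trivially on `J₀(N)[m]` -/
theorem inertia_smul_tors {ℓ : ℕ} (hℓ : ℓ.Prime) (hℓNm : ¬ ℓ ∣ N * m) (A : ValuationSubring Qb)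
    (hA : A.LiesOverPrime ℓ) (σ : GQ) (hσ : σ ∈ A.inertiaSubgroupIn ℚ) (z : JZero N)
    (hz : (m : ℤ) • z = 0) : σ • z = z := by
  have h := LinearMap.congr_fun ((Mm N m).inertia ℓ hℓ hℓNm A hA σ hσ) (kumOf N m z hz)
  rw [Module.End.one_apply] at h
  have h2 := congrArg (toJ N m) h
  rw [toJ_gal, toJ_kumOf] at h2
  exact h2

/-- torsion points have stabilisers of finite level -/
theorem hasLevel_tors (z : JZero N) (hz : (m : ℤ) • z = 0) :
    Fermat.Agent.GJ.FiniteLevel.HasLevel (fun σ : GQ => σ • z = z) := by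
  refine ((Mm N m).level (kumOf N m z hz)).mono fun σ hσ => ?_
  have h2 := congrArg (toJ N m) hσ
  rw [toJ_gal, toJ_kumOf] at h2
  exact h2

end Fermat.Agent.GZ.HeckeTors
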