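/-
GATE-Z / seam (HECKE-TORS), file 3 (helper36): the Hecke operators `heckeOperatorBar N ℓ`
(`ℓ ∤ N`) COMMUTE ON THE TORSION of `JZero N`  (= the `htors` binder of `GZ/HComm`).

Route: on `Kum_{p^n}(F_N)` the operators `T ℓ` are induced, along the surjection
`ThetaN N p n : Lam N → Kum_{p^n}(F_N)`, by the action of the COMMUTATIVE ring
`heckeAlgebra N 2 S` on the lattice (`GB/B10/KumLevelHecke.thetaN_heckeTl`, any prime `p`);
transport to `J₀(N)[p^n]` by `Compat.coe_kumTorsionBy_T`; general torsion by Bezout.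
-/
import Fermat.Agent.GZ.HeckeTors.ESJ
import Fermat.Agent.GB.B10.KumLevelHecke

set_option autoImplicit false
set_option linter.unusedSectionVars false

noncomputable section

namespace Fermat.Agent.GZ.HeckeTors

open AlgebraicCurve ModularCurve
open Fermat.Agent.GJ.KumGroup Fermat.Agent.GJ.Kum.KumType Fermat.Agent.GJ.J4Asm
open Fermat.Agent.GB.B10.KumLevelHecke

local notation "Qb" => AlgebraicClosure ℚ
local notation "GQ" => (AlgebraicClosure ℚ ≃ₐ[ℚ] AlgebraicClosure ℚ)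

variable (N : ℕ) [NeZero N]

/-- the Hecke operators of the Kummer model at a prime power commute -/
theorem Mm_T_comm (p : ℕ) [Fact p.Prime] (n : ℕ) {ℓ ℓ' : ℕ} (hℓ : ℓ.Prime) (hℓN : ¬ ℓ ∣ N)
    (hℓ' : ℓ'.Prime) (hℓ'N : ¬ ℓ' ∣ N) (x : (Mn p N n).K) :
    (Mn p N n).T ℓ ((Mn p N n).T ℓ' x) = (Mn p N n).T ℓ' ((Mn p N n).T ℓ x) := by
  obtain ⟨y, rfl⟩ := ΘM_surjective p N n x
  set S : Finset ℕ := N.primeFactors with hS
  have hNS : ∀ q : ℕ, q.Prime → q ∣ N → q ∈ S := fun q hq hqN =>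
    Nat.mem_primeFactors.mpr ⟨hq, hqN, NeZero.ne N⟩
  have hℓS : ℓ ∉ S := fun h => hℓN (Nat.dvd_of_mem_primeFactors h)
  have hℓ'S : ℓ' ∉ S := fun h => hℓ'N (Nat.dvd_of_mem_primeFactors h)
  have e1 := fun z => thetaN_heckeTl p N S hNS n ℓ hℓ hℓS z
  have e2 := fun z => thetaN_heckeTl p N S hNS n ℓ' hℓ' hℓ'S z
  show (Mn p N n).T ℓ ((Mn p N n).T ℓ' (Fermat.Agent.GK.Tate.S35Top.ThetaN N p n y)) =
    (Mn p N n).T ℓ' ((Mn p N n).T ℓ (Fermat.Agent.GK.Tate.S35Top.ThetaN N p n y))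
  have h1 : (Mn p N n).T ℓ ((Mn p N n).T ℓ' (Fermat.Agent.GK.Tate.S35Top.ThetaN N p n y)) =
      Fermat.Agent.GK.Tate.S35Top.ThetaN N p n
        (Fermat.Agent.GJ.J2.LatAct.latAct N ↑S
          (Fermat.Agent.GJ.Tate.heckeTl N S ℓ * Fermat.Agent.GJ.Tate.heckeTl N S ℓ') y) := by
    rw [map_mul, Module.End.mul_apply, e1, e2]
    rfl
  have h2 : (Mn p N n).T ℓ' ((Mn p N n).T ℓ (Fermat.Agent.GK.Tate.S35Top.ThetaN N p n y)) =
      Fermat.Agent.GK.Tate.S35Top.ThetaN N p n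
        (Fermat.Agent.GJ.J2.LatAct.latAct N ↑S
          (Fermat.Agent.GJ.Tate.heckeTl N S ℓ' * Fermat.Agent.GJ.Tate.heckeTl N S ℓ) y) := by
    rw [map_mul, Module.End.mul_apply, e2, e1]
    rfl
  rw [h1, h2, mul_comm]

/-- commutation on `J₀(N)[p^n]` -/
theorem hecke_comm_primePow (p : ℕ) [Fact p.Prime] (n : ℕ) {ℓ ℓ' : ℕ} (hℓ : ℓ.Prime)
    (hℓN : ¬ ℓ ∣ N) (hℓ' : ℓ'.Prime) (hℓ'N : ¬ ℓ' ∣ N) (z : JZero N)
    (hz : (p ^ n) • z = 0) :
    heckeOperatorBar N ⟨ℓ, hℓ⟩ (heckeOperatorBar N ⟨ℓ', hℓ'⟩ z) =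
      heckeOperatorBar N ⟨ℓ', hℓ'⟩ (heckeOperatorBar N ⟨ℓ, hℓ⟩ z) := by
  haveI : NeZero (p ^ n) := ⟨pow_ne_zero n (Fact.out : p.Prime).ne_zero⟩
  have hz' : ((p ^ n : ℕ) : ℤ) • z = 0 := by rw [natCast_zsmul]; exact hz
  have h := Mm_T_comm N p n hℓ hℓN hℓ' hℓ'N (kumOf N (p ^ n) z hz')
  have h2 := congrArg (toJ N (p ^ n)) h
  have e : ∀ (q : ℕ) (hq : q.Prime) (hqN : ¬ q ∣ N) (x : (Mm N (p ^ n)).K),
      toJ N (p ^ n) ((Mn p N n).T q x) = heckeOperatorBar N ⟨q, hq⟩ (toJ N (p ^ n) x) :=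
    fun q hq hqN x => toJ_T N (p ^ n) hq hqN x
  rw [e ℓ hℓ hℓN, e ℓ' hℓ' hℓ'N, e ℓ' hℓ' hℓ'N, e ℓ hℓ hℓN, toJ_kumOf] at h2
  exact h2

/-- **Hecke operators commute on torsion points** (the `htors` binder of `GZ/HComm`). -/
theorem hecke_comm_tors {ℓ ℓ' : ℕ} (hℓ : ℓ.Prime) (hℓN : ¬ ℓ ∣ N) (hℓ' : ℓ'.Prime)
    (hℓ'N : ¬ ℓ' ∣ N) (z : JZero N) (hz : IsOfFinAddOrder z) :
    heckeOperatorBar N ⟨ℓ, hℓ⟩ (heckeOperatorBar N ⟨ℓ', hℓ'⟩ z) =
      heckeOperatorBar N ⟨ℓ', hℓ'⟩ (heckeOperatorBar N ⟨ℓ, hℓ⟩ z) := by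
  set φ : Module.End ℤ (JZero N) :=
    heckeOperatorBar N ⟨ℓ, hℓ⟩ * heckeOperatorBar N ⟨ℓ', hℓ'⟩ -
      heckeOperatorBar N ⟨ℓ', hℓ'⟩ * heckeOperatorBar N ⟨ℓ, hℓ⟩ with hφ
  have key : ∀ m : ℕ, m ≠ 0 → ∀ w : JZero N, m • w = 0 → φ w = 0 := by
    intro m
    induction m using Nat.recOnPosPrimePosCoprime with
    | zero => intro h; exact absurd rfl h
    | one =>
      intro _ w hw
      rw [one_smul] at hw
      rw [hw, map_zero]
    | prime_pow p n hp hn =>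
      intro _ w hw
      haveI : Fact p.Prime := ⟨hp⟩
      have := hecke_comm_primePow N p n hℓ hℓN hℓ' hℓ'N w hw
      rw [hφ, LinearMap.sub_apply, Module.End.mul_apply, Module.End.mul_apply, this, sub_self]
    | coprime a b ha hb hab iha ihb =>
      intro _ w hw
      have ha0 : a ≠ 0 := by omega
      have hb0 : b ≠ 0 := by omega
      obtain ⟨u, v, huv⟩ : IsCoprime (a : ℤ) (b : ℤ) := Nat.isCoprime_iff_coprime.mpr hab
      have h1 : φ (a • w) = 0 := by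
        apply ihb hb0
        rw [← mul_smul, mul_comm]
        exact hw
      have h2 : φ (b • w) = 0 := by
        apply iha ha0
        rw [← mul_smul]
        exact hw
      have hw' : w = u • (a • w) + v • (b • w) := by
        rw [← natCast_zsmul w a, ← natCast_zsmul w b, ← mul_smul, ← mul_smul]
        rw [← add_smul (u * (a : ℤ)) (v * (b : ℤ)) w, huv, one_smul]
      rw [hw', map_add, map_zsmul, map_zsmul, h1, h2, smul_zero, smul_zero, add_zero]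
  obtain ⟨m, hm, hmz⟩ := isOfFinAddOrder_iff_nsmul_eq_zero.mp hz
  have := key m (Nat.pos_iff_ne_zero.mp hm) z hmz
  rw [hφ, LinearMap.sub_apply, Module.End.mul_apply, Module.End.mul_apply, sub_eq_zero] at this
  exact this

end Fermat.Agent.GZ.HeckeTors
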