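/-
GATE-Z / seam (HECKE-TORS), file 4 (helper36): **the lattice side** — the surjection
`θ = kumTorsionBy ∘ thetaLat : Λ_N → J₀(N)[m]` intertwines the lattice Hecke operator `latT N ℓ`
with `heckeOperatorBar N ℓ` (`ℓ ∤ N`).  This is (J3) of the NUM**-plug (helper46 6160 §4 /
helper10 6212).

* `thetaLat_latT`      : `thetaLat (latT ℓ Φ) = (Mm N m).T ℓ (thetaLat Φ)`;
* `coe_kumTorsionBy_thetaLat_latT` :
    `kumTorsionBy (thetaLat (latT ℓ Φ)) = heckeOperatorBar N ℓ (kumTorsionBy (thetaLat Φ))`.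
-/
import Fermat.Agent.GZ.HeckeTors.Compat
import Fermat.Agent.GK.UQ.LatU

set_option autoImplicit false
set_option linter.unusedSectionVars false

noncomputable section

namespace Fermat.Agent.GZ.HeckeTors

open AlgebraicCurve ModularCurve
open Fermat.Agent.GJ.KumGroup Fermat.Agent.GJ.Kum.KumType Fermat.Agent.GJ.J4Asm
open Fermat.Agent.GJ.KumFinal (hnMemHyp hnDivHyp)
open Fermat.Agent.GJ.KumTower Fermat.Agent.GJ.J2.Lat

local notation "Qb" => AlgebraicClosure ℚ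

variable (N : ℕ) [NeZero N] (m : ℕ) [NeZero m] {ζ : ℂ}

/-- `thetaLat` intertwines `latT` with the Hecke operator of the Kummer model. -/
theorem thetaLat_latT (hζ : IsPrimitiveRoot ζ m) {ℓ : ℕ} (hℓ : ℓ.Prime) (hℓN : ¬ ℓ ∣ N)
    (Φ : Lam N) :
    thetaLat N m hζ (latT N (⟨ℓ, hℓ⟩ : Nat.Primes) Φ) = (Mm N m).T ℓ (thetaLat N m hζ Φ) := by
  haveI : Fact ℓ.Prime := ⟨hℓ⟩
  haveI : NeZero ℓ := ⟨hℓ.ne_zero⟩
  rw [Fermat.Agent.GK.UQ.thetaLat_latT_of_not_dvd N m hζ hℓN (hnMemHyp N hℓ hℓN)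
    (hnDivHyp N m hℓ hℓN) Φ]
  obtain ⟨u, hu⟩ := exists_rep (K := Qb) (F := FK N) (p := m) (thetaLat N m hζ Φ)
  rw [hu, TEnd_mk]
  exact (Mm_T_mk N m hℓ hℓN u).symm

/-- **(J3)**: `θ = kumTorsionBy ∘ thetaLat` intertwines `latT N ℓ` with `heckeOperatorBar N ℓ`. -/
theorem coe_kumTorsionBy_thetaLat_latT (hζ : IsPrimitiveRoot ζ m) {ℓ : ℕ} (hℓ : ℓ.Prime)
    (hℓN : ¬ ℓ ∣ N) (Φ : Lam N) :
    ((Fermat.Agent.GH.S32.KumEquivariant.kumTorsionBy N m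
        (thetaLat N m hζ (latT N (⟨ℓ, hℓ⟩ : Nat.Primes) Φ)) :
      ↥(Submodule.torsionBy ℤ (JZero N) (m : ℤ))) : JZero N) =
      heckeOperatorBar N ⟨ℓ, hℓ⟩
        ((Fermat.Agent.GH.S32.KumEquivariant.kumTorsionBy N m (thetaLat N m hζ Φ) :
          ↥(Submodule.torsionBy ℤ (JZero N) (m : ℤ))) : JZero N) := by
  rw [thetaLat_latT N m hζ hℓ hℓN Φ]
  exact coe_kumTorsionBy_T N m hℓ hℓN _

end Fermat.Agent.GZ.HeckeTors
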